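import Fermat.Agent.LT.T6.H830.HCSpec

/-!
# Row LT, tower T6, leaf T6.29.R2 `SphAvgAtC` (registry 1448) — helper510, OFF-MAIN

    sphAvgAtC_h510 : Fermat.Agent.LT.T6.H830.SphAvgAtC

verbatim against `LT/T6/H830/HCSpec.lean` (helper830@99e12b740, sha256 c3e7d846),
`LT/T6/SpecArch.lean` (003240b2), `LT/T6/Spec.lean` (8c5f2ae7).

For `n ∈ {0, 1, -1}`, `t ≥ 0`:
`(1/2π) ∫₀^{2π} e^{-inθ} E(k_θ a_t) dθ = sphRad n s (cosh t)`.

With `C = cosh (t/2)`, `S = sinh (t/2)` the second row of `k_θ a_t` is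
`(c, d) = (sin θ (C + S), cos θ (C - S))`, the determinant is `1`,
`c² + d² = cosh t - cos 2θ sinh t =: X(2θ)` and
`e^{-iθ} (d + i c) = (C - cos 2θ S) + i sin 2θ S =: A(2θ) + i B(2θ)`.
The integrand is `G(2θ)`, `G` continuous of period `2π`; `∫₀^{2π} G(2θ) dθ = ∫₀^{2π} G`; the
part with `B` is odd and integrates to `0`.
-/

set_option autoImplicit false

open scoped Matrix
open MeasureTheory

noncomputable section

namespace Fermat.Agent.LT.T6.H510

open Fermat.Agent.LT.T6 Fermat.Agent.LT.T6.H830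

/-! ## 1. Hyperbolic functions of the half argument -/

theorem exp_half_h510 (t : ℝ) :
    Real.exp ((0 + t) / 2) = Real.cosh (t / 2) + Real.sinh (t / 2) := by
  rw [zero_add, Real.cosh_add_sinh]

theorem exp_neg_half_h510 (t : ℝ) :
    Real.exp ((0 - t) / 2) = Real.cosh (t / 2) - Real.sinh (t / 2) := by
  rw [zero_sub, neg_div, Real.cosh_sub_sinh]

theorem cosh_eq_half_h510 (t : ℝ) :
    Real.cosh t = Real.cosh (t / 2) ^ 2 + Real.sinh (t / 2) ^ 2 := by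
  have h := Real.cosh_two_mul (t / 2)
  rwa [show 2 * (t / 2) = t by ring] at h

theorem sinh_eq_half_h510 (t : ℝ) :
    Real.sinh t = 2 * Real.sinh (t / 2) * Real.cosh (t / 2) := by
  have h := Real.sinh_two_mul (t / 2)
  rwa [show 2 * (t / 2) = t by ring] at h

theorem sqrt_cosh_sq_sub_one_h510 {t : ℝ} (ht : 0 ≤ t) :
    Real.sqrt (Real.cosh t ^ 2 - 1) = Real.sinh t := by
  have h : Real.cosh t ^ 2 - 1 = Real.sinh t ^ 2 := by
    rw [Real.cosh_sq]; ring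
  rw [h, Real.sqrt_sq (Real.sinh_nonneg_iff.mpr ht)]

theorem sqrt_cosh_add_one_h510 (t : ℝ) :
    Real.sqrt ((Real.cosh t + 1) / 2) = Real.cosh (t / 2) := by
  have h : (Real.cosh t + 1) / 2 = Real.cosh (t / 2) ^ 2 := by
    rw [cosh_eq_half_h510 t]
    have := Real.cosh_sq (t / 2)
    linarith
  rw [h, Real.sqrt_sq (Real.cosh_pos _).le]

theorem sqrt_cosh_sub_one_h510 {t : ℝ} (ht : 0 ≤ t) :
    Real.sqrt ((Real.cosh t - 1) / 2) = Real.sinh (t / 2) := by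
  have h : (Real.cosh t - 1) / 2 = Real.sinh (t / 2) ^ 2 := by
    rw [cosh_eq_half_h510 t]
    have := Real.cosh_sq (t / 2)
    linarith
  rw [h, Real.sqrt_sq (Real.sinh_nonneg_iff.mpr (by positivity))]

/-! ## 2. The three real functions -/

/-- `X(u) = cosh t - cos u sinh t`. -/
def xF_h510 (t u : ℝ) : ℝ := Real.cosh t - Real.cos u * Real.sinh t

/-- `A(u) = cosh (t/2) - cos u sinh (t/2)`. -/
def aF_h510 (t u : ℝ) : ℝ := Real.cosh (t / 2) - Real.cos u * Real.sinh (t / 2)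

/-- `B(u) = sin u sinh (t/2)`. -/
def bF_h510 (t u : ℝ) : ℝ := Real.sin u * Real.sinh (t / 2)

theorem xF_pos_h510 {t : ℝ} (ht : 0 ≤ t) (u : ℝ) : 0 < xF_h510 t u := by
  unfold xF_h510
  have h1 : Real.cos u * Real.sinh t ≤ 1 * Real.sinh t :=
    mul_le_mul_of_nonneg_right (Real.cos_le_one u) (Real.sinh_nonneg_iff.mpr ht)
  have h2 := Real.sinh_lt_cosh t
  linarith

theorem continuous_xF_h510 (t : ℝ) : Continuous (xF_h510 t) := by
  unfold xF_h510; fun_prop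

theorem continuous_aF_h510 (t : ℝ) : Continuous (aF_h510 t) := by
  unfold aF_h510; fun_prop

theorem continuous_bF_h510 (t : ℝ) : Continuous (bF_h510 t) := by
  unfold bF_h510; fun_prop

/-! ## 3. The entries of `k_θ a_t` -/

theorem entry10_h510 (θ t : ℝ) :
    ((rotR θ * bR 0 t 0 : GL (Fin 2) ℝ) : Matrix (Fin 2) (Fin 2) ℝ) 1 0
      = Real.sin θ * (Real.cosh (t / 2) + Real.sinh (t / 2)) := by
  rw [Units.val_mul, coe_rotR830, coe_bR830, exp_half_h510, exp_neg_half_h510]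
  simp [Matrix.mul_apply, Fin.sum_univ_two]

theorem entry11_h510 (θ t : ℝ) :
    ((rotR θ * bR 0 t 0 : GL (Fin 2) ℝ) : Matrix (Fin 2) (Fin 2) ℝ) 1 1
      = Real.cos θ * (Real.cosh (t / 2) - Real.sinh (t / 2)) := by
  rw [Units.val_mul, coe_rotR830, coe_bR830, exp_half_h510, exp_neg_half_h510]
  simp [Matrix.mul_apply, Fin.sum_univ_two]

theorem det_h510 (θ t : ℝ) :
    ((rotR θ * bR 0 t 0 : GL (Fin 2) ℝ) : Matrix (Fin 2) (Fin 2) ℝ).det = 1 := by
  rw [Units.val_mul, Matrix.det_mul, coe_rotR830, coe_bR830, exp_half_h510, exp_neg_half_h510,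
    Matrix.det_fin_two_of, Matrix.det_fin_two_of]
  have h1 := Real.cos_sq_add_sin_sq θ
  have h2 := Real.cosh_sq (t / 2)
  have h3 : (Real.cosh (t / 2) + Real.sinh (t / 2)) * (Real.cosh (t / 2) - Real.sinh (t / 2))
      = 1 := by
    linear_combination h2
  have h4 : Real.cos θ * Real.cos θ - -Real.sin θ * Real.sin θ = 1 := by
    linear_combination h1
  rw [h4, one_mul]
  linear_combination h3

theorem sq_add_sq_h510 (θ t : ℝ) :
    (Real.sin θ * (Real.cosh (t / 2) + Real.sinh (t / 2))) ^ 2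
      + (Real.cos θ * (Real.cosh (t / 2) - Real.sinh (t / 2))) ^ 2 = xF_h510 t (2 * θ) := by
  unfold xF_h510
  rw [cosh_eq_half_h510 t, sinh_eq_half_h510 t, Real.cos_two_mul]
  have h1 := Real.cos_sq_add_sin_sq θ
  linear_combination ((Real.cosh (t / 2)) ^ 2 + (Real.sinh (t / 2)) ^ 2
    + 2 * Real.sinh (t / 2) * Real.cosh (t / 2)) * h1

/-! ## 4. Complex powers of positive reals -/

theorem inv_cpow_h510 {x : ℝ} (hx : 0 < x) (w : ℂ) :
    ((1 / x : ℝ) : ℂ) ^ w = ((x : ℝ) : ℂ) ^ (-w) := by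
  rw [one_div, Complex.ofReal_inv, Complex.inv_cpow _ _ (by
    rw [Complex.arg_ofReal_of_nonneg hx.le]; exact Real.pi_ne_zero.symm), Complex.cpow_neg]

theorem sqrt_cpow_h510 {x : ℝ} (hx : 0 < x) :
    ((Real.sqrt x : ℝ) : ℂ) = ((x : ℝ) : ℂ) ^ (1 / 2 : ℂ) := by
  rw [Real.sqrt_eq_rpow, Complex.ofReal_cpow hx.le]
  norm_num

theorem cpow_div_sqrt_h510 {x : ℝ} (hx : 0 < x) (s : ℂ) :
    ((1 / x : ℝ) : ℂ) ^ (s + 1 / 2) / ((Real.sqrt x : ℝ) : ℂ) = ((x : ℝ) : ℂ) ^ (-s - 1) := by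
  have hx0 : ((x : ℝ) : ℂ) ≠ 0 := Complex.ofReal_ne_zero.mpr hx.ne'
  rw [inv_cpow_h510 hx, sqrt_cpow_h510 hx, ← Complex.cpow_sub _ _ hx0]
  congr 1
  ring

theorem continuous_cpow_xF_h510 {t : ℝ} (ht : 0 ≤ t) (w : ℂ) :
    Continuous fun u : ℝ => ((xF_h510 t u : ℝ) : ℂ) ^ w := by
  refine Continuous.cpow (Complex.continuous_ofReal.comp (continuous_xF_h510 t))
    continuous_const (fun u => ?_)
  exact Complex.ofReal_mem_slitPlane.mpr (xF_pos_h510 ht u)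

/-! ## 5. The phase -/

theorem exp_neg_I_h510 (θ : ℝ) :
    Complex.exp (-((θ : ℂ) * Complex.I))
      = ((Real.cos θ : ℝ) : ℂ) - ((Real.sin θ : ℝ) : ℂ) * Complex.I := by
  rw [← neg_mul, Complex.exp_mul_I, Complex.cos_neg, Complex.sin_neg, Complex.ofReal_cos,
    Complex.ofReal_sin]
  ring

theorem exp_I_h510 (θ : ℝ) :
    Complex.exp ((θ : ℂ) * Complex.I)
      = ((Real.cos θ : ℝ) : ℂ) + ((Real.sin θ : ℝ) : ℂ) * Complex.I := by
  rw [Complex.exp_mul_I, Complex.ofReal_cos, Complex.ofReal_sin]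

/-- `e^{-iθ} (d + i c) = A(2θ) + i B(2θ)`. -/
theorem phase_pos_h510 (θ t : ℝ) :
    (((Real.cos θ : ℝ) : ℂ) - ((Real.sin θ : ℝ) : ℂ) * Complex.I) *
      (((Real.cos θ * (Real.cosh (t / 2) - Real.sinh (t / 2)) : ℝ) : ℂ)
        + ((Real.sin θ * (Real.cosh (t / 2) + Real.sinh (t / 2)) : ℝ) : ℂ) * Complex.I)
      = ((aF_h510 t (2 * θ) : ℝ) : ℂ) + ((bF_h510 t (2 * θ) : ℝ) : ℂ) * Complex.I := by
  unfold aF_h510 bF_h510
  rw [Real.cos_two_mul, Real.sin_two_mul]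
  have h1 : ((Real.cos θ : ℝ) : ℂ) ^ 2 + ((Real.sin θ : ℝ) : ℂ) ^ 2 = 1 := by
    have := Real.cos_sq_add_sin_sq θ
    exact_mod_cast this
  have hI : Complex.I ^ 2 = -1 := Complex.I_sq
  simp only [Complex.ofReal_mul, Complex.ofReal_add, Complex.ofReal_sub, Complex.ofReal_ofNat,
    Complex.ofReal_one, Complex.ofReal_pow]
  linear_combination
    (((Real.cosh (t / 2) : ℝ) : ℂ) + ((Real.sinh (t / 2) : ℝ) : ℂ)) * h1
      - (((Real.cosh (t / 2) : ℝ) : ℂ) + ((Real.sinh (t / 2) : ℝ) : ℂ))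
        * ((Real.sin θ : ℝ) : ℂ) ^ 2 * hI

/-- `e^{iθ} (d - i c) = A(2θ) - i B(2θ)`. -/
theorem phase_neg_h510 (θ t : ℝ) :
    (((Real.cos θ : ℝ) : ℂ) + ((Real.sin θ : ℝ) : ℂ) * Complex.I) *
      (((Real.cos θ * (Real.cosh (t / 2) - Real.sinh (t / 2)) : ℝ) : ℂ)
        - ((Real.sin θ * (Real.cosh (t / 2) + Real.sinh (t / 2)) : ℝ) : ℂ) * Complex.I)
      = ((aF_h510 t (2 * θ) : ℝ) : ℂ) - ((bF_h510 t (2 * θ) : ℝ) : ℂ) * Complex.I := by
  unfold aF_h510 bF_h510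
  rw [Real.cos_two_mul, Real.sin_two_mul]
  have h1 : ((Real.cos θ : ℝ) : ℂ) ^ 2 + ((Real.sin θ : ℝ) : ℂ) ^ 2 = 1 := by
    have := Real.cos_sq_add_sin_sq θ
    exact_mod_cast this
  have hI : Complex.I ^ 2 = -1 := Complex.I_sq
  simp only [Complex.ofReal_mul, Complex.ofReal_add, Complex.ofReal_sub, Complex.ofReal_ofNat,
    Complex.ofReal_one, Complex.ofReal_pow]
  linear_combination
    (((Real.cosh (t / 2) : ℝ) : ℂ) + ((Real.sinh (t / 2) : ℝ) : ℂ)) * h1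
      - (((Real.cosh (t / 2) : ℝ) : ℂ) + ((Real.sinh (t / 2) : ℝ) : ℂ))
        * ((Real.sin θ : ℝ) : ℂ) ^ 2 * hI

/-- `(d + i c)(d - i c) = X(2θ)`. -/
theorem norm_sq_h510 (θ t : ℝ) :
    (((Real.cos θ * (Real.cosh (t / 2) - Real.sinh (t / 2)) : ℝ) : ℂ)
        + ((Real.sin θ * (Real.cosh (t / 2) + Real.sinh (t / 2)) : ℝ) : ℂ) * Complex.I) *
      (((Real.cos θ * (Real.cosh (t / 2) - Real.sinh (t / 2)) : ℝ) : ℂ)
        - ((Real.sin θ * (Real.cosh (t / 2) + Real.sinh (t / 2)) : ℝ) : ℂ) * Complex.I)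
      = ((xF_h510 t (2 * θ) : ℝ) : ℂ) := by
  rw [← sq_add_sq_h510]
  have hI : Complex.I ^ 2 = -1 := Complex.I_sq
  simp only [Complex.ofReal_mul, Complex.ofReal_add, Complex.ofReal_sub, Complex.ofReal_pow]
  linear_combination
    -((((Real.sin θ : ℝ) : ℂ) * (((Real.cosh (t / 2) : ℝ) : ℂ) + ((Real.sinh (t / 2) : ℝ) : ℂ)))
      ^ 2) * hI

/-! ## 6. The function `E` at `k_θ a_t` -/

theorem eisR_rot_h510 (n : ℤ) (s : ℂ) (θ t : ℝ) :
    eisR n s (rotR θ * bR 0 t 0)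
      = ((1 / xF_h510 t (2 * θ) : ℝ) : ℂ) ^ (s + 1 / 2) *
        ((((Real.cos θ * (Real.cosh (t / 2) - Real.sinh (t / 2)) : ℝ) : ℂ)
          + ((Real.sin θ * (Real.cosh (t / 2) + Real.sinh (t / 2)) : ℝ) : ℂ) * Complex.I)
          / ((Real.sqrt (xF_h510 t (2 * θ)) : ℝ) : ℂ)) ^ n := by
  unfold eisR
  rw [entry10_h510, entry11_h510, det_h510, sq_add_sq_h510]

/-- The integrand for `n = 0`. -/
theorem integrand_zero_h510 (s : ℂ) {t : ℝ} (ht : 0 ≤ t) (θ : ℝ) :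
    Complex.exp (-(((0 : ℤ) : ℂ) * (θ : ℂ) * Complex.I)) * eisR 0 s (rotR θ * bR 0 t 0)
      = ((xF_h510 t (2 * θ) : ℝ) : ℂ) ^ (-s - 1 / 2) := by
  rw [Int.cast_zero, zero_mul, zero_mul, neg_zero, Complex.exp_zero, one_mul, eisR_rot_h510,
    zpow_zero, mul_one, inv_cpow_h510 (xF_pos_h510 ht _)]
  congr 1
  ring

/-- The integrand for `n = 1`. -/
theorem integrand_one_h510 (s : ℂ) {t : ℝ} (ht : 0 ≤ t) (θ : ℝ) :
    Complex.exp (-(((1 : ℤ) : ℂ) * (θ : ℂ) * Complex.I)) * eisR 1 s (rotR θ * bR 0 t 0)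
      = (((aF_h510 t (2 * θ) : ℝ) : ℂ) + ((bF_h510 t (2 * θ) : ℝ) : ℂ) * Complex.I) *
        ((xF_h510 t (2 * θ) : ℝ) : ℂ) ^ (-s - 1) := by
  rw [Int.cast_one, one_mul, exp_neg_I_h510, eisR_rot_h510, zpow_one,
    ← phase_pos_h510, ← cpow_div_sqrt_h510 (xF_pos_h510 ht _)]
  ring

/-- The integrand for `n = -1`. -/
theorem integrand_neg_one_h510 (s : ℂ) {t : ℝ} (ht : 0 ≤ t) (θ : ℝ) :
    Complex.exp (-(((-1 : ℤ) : ℂ) * (θ : ℂ) * Complex.I)) * eisR (-1) s (rotR θ * bR 0 t 0)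
      = (((aF_h510 t (2 * θ) : ℝ) : ℂ) - ((bF_h510 t (2 * θ) : ℝ) : ℂ) * Complex.I) *
        ((xF_h510 t (2 * θ) : ℝ) : ℂ) ^ (-s - 1) := by
  have hX := xF_pos_h510 ht (2 * θ)
  have hr : ((Real.sqrt (xF_h510 t (2 * θ)) : ℝ) : ℂ) ≠ 0 :=
    Complex.ofReal_ne_zero.mpr (Real.sqrt_pos.mpr hX).ne'
  have hrr : ((Real.sqrt (xF_h510 t (2 * θ)) : ℝ) : ℂ) * ((Real.sqrt (xF_h510 t (2 * θ)) : ℝ) : ℂ)
      = ((xF_h510 t (2 * θ) : ℝ) : ℂ) := by
    rw [← Complex.ofReal_mul, Real.mul_self_sqrt hX.le]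
  have hN := norm_sq_h510 θ t
  have hz : (((Real.cos θ * (Real.cosh (t / 2) - Real.sinh (t / 2)) : ℝ) : ℂ)
        + ((Real.sin θ * (Real.cosh (t / 2) + Real.sinh (t / 2)) : ℝ) : ℂ) * Complex.I) ≠ 0 := by
    intro h0
    rw [h0, zero_mul] at hN
    exact (Complex.ofReal_ne_zero.mpr hX.ne') hN.symm
  have hinv : ((((Real.cos θ * (Real.cosh (t / 2) - Real.sinh (t / 2)) : ℝ) : ℂ)
          + ((Real.sin θ * (Real.cosh (t / 2) + Real.sinh (t / 2)) : ℝ) : ℂ) * Complex.I)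
          / ((Real.sqrt (xF_h510 t (2 * θ)) : ℝ) : ℂ)) ^ (-1 : ℤ)
      = (((Real.cos θ * (Real.cosh (t / 2) - Real.sinh (t / 2)) : ℝ) : ℂ)
          - ((Real.sin θ * (Real.cosh (t / 2) + Real.sinh (t / 2)) : ℝ) : ℂ) * Complex.I)
          / ((Real.sqrt (xF_h510 t (2 * θ)) : ℝ) : ℂ) := by
    rw [zpow_neg_one, inv_div, div_eq_div_iff hz hr, hrr, ← hN]
    ring
  rw [Int.cast_neg, Int.cast_one, neg_mul, neg_mul, neg_neg, one_mul, exp_I_h510, eisR_rot_h510,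
    hinv, ← phase_neg_h510, ← cpow_div_sqrt_h510 hX]
  ring

/-! ## 7. Integrals over a period -/

theorem integral_comp_two_mul_h510 {G : ℝ → ℂ} (hG : Continuous G)
    (hper : Function.Periodic G (2 * Real.pi)) :
    ∫ θ in (0 : ℝ)..(2 * Real.pi), G (2 * θ) = ∫ u in (0 : ℝ)..(2 * Real.pi), G u := by
  have h1 := intervalIntegral.integral_comp_mul_left (a := 0) (b := 2 * Real.pi) G
    (c := 2) two_ne_zero
  rw [h1, mul_zero]
  have h2 : ∫ x in (0 : ℝ)..(2 * (2 * Real.pi)), G x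
      = (∫ x in (0 : ℝ)..(2 * Real.pi), G x)
        + ∫ x in (2 * Real.pi)..(2 * (2 * Real.pi)), G x :=
    (intervalIntegral.integral_add_adjacent_intervals (hG.intervalIntegrable _ _)
      (hG.intervalIntegrable _ _)).symm
  have h3 : ∫ x in (2 * Real.pi)..(2 * (2 * Real.pi)), G x
      = ∫ x in (0 : ℝ)..(2 * Real.pi), G x := by
    have h := hper.intervalIntegral_add_eq (2 * Real.pi) 0
    rw [zero_add] at h
    rw [← h]
    congr 1
    ring
  rw [h2, h3, ← two_smul ℝ, smul_smul, inv_mul_cancel₀ (two_ne_zero' ℝ), one_smul]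

theorem integral_odd_h510 {h : ℝ → ℂ} (hper : Function.Periodic h (2 * Real.pi))
    (hodd : ∀ u, h (-u) = -h u) :
    ∫ u in (0 : ℝ)..(2 * Real.pi), h u = 0 := by
  have h1 : ∫ u in (0 : ℝ)..(2 * Real.pi), h u = ∫ u in (-Real.pi)..Real.pi, h u := by
    have h0 := hper.intervalIntegral_add_eq 0 (-Real.pi)
    rw [zero_add] at h0
    rw [h0]
    congr 1
    ring
  have h2 : ∫ u in (-Real.pi)..Real.pi, h (-u) = ∫ u in (-Real.pi)..Real.pi, h u := by
    have h0 := intervalIntegral.integral_comp_neg (a := -Real.pi) (b := Real.pi) h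
    rw [h0, neg_neg]
  have h3 : ∫ u in (-Real.pi)..Real.pi, h (-u) = -∫ u in (-Real.pi)..Real.pi, h u := by
    rw [← intervalIntegral.integral_neg]
    exact intervalIntegral.integral_congr (fun u _ => hodd u)
  have h4 : ∫ u in (-Real.pi)..Real.pi, h u = -∫ u in (-Real.pi)..Real.pi, h u :=
    h2.symm.trans h3
  have h5 : (2 : ℂ) * ∫ u in (-Real.pi)..Real.pi, h u = 0 := by linear_combination h4
  rw [h1]
  rcases mul_eq_zero.mp h5 with h6 | h6
  · exact absurd h6 two_ne_zero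
  · exact h6

theorem periodic_xF_h510 (t : ℝ) : Function.Periodic (xF_h510 t) (2 * Real.pi) := by
  intro u
  unfold xF_h510
  rw [Real.cos_add_two_pi]

theorem periodic_aF_h510 (t : ℝ) : Function.Periodic (aF_h510 t) (2 * Real.pi) := by
  intro u
  unfold aF_h510
  rw [Real.cos_add_two_pi]

theorem periodic_bF_h510 (t : ℝ) : Function.Periodic (bF_h510 t) (2 * Real.pi) := by
  intro u
  unfold bF_h510
  rw [Real.sin_add_two_pi]

theorem xF_neg_h510 (t u : ℝ) : xF_h510 t (-u) = xF_h510 t u := by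
  unfold xF_h510
  rw [Real.cos_neg]

theorem bF_neg_h510 (t u : ℝ) : bF_h510 t (-u) = -bF_h510 t u := by
  unfold bF_h510
  rw [Real.sin_neg, neg_mul]

/-- The odd part integrates to `0`. -/
theorem integral_bF_h510 (t : ℝ) (w : ℂ) :
    ∫ u in (0 : ℝ)..(2 * Real.pi),
      ((bF_h510 t u : ℝ) : ℂ) * Complex.I * ((xF_h510 t u : ℝ) : ℂ) ^ w = 0 := by
  refine integral_odd_h510 ?_ ?_
  · intro u
    simp only [periodic_xF_h510 t u, periodic_bF_h510 t u]
  · intro u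
    simp only [xF_neg_h510, bF_neg_h510, Complex.ofReal_neg, neg_mul]

/-- The integral of `(A ± i B) X^w` over a period is the integral of `A X^w`. -/
theorem integral_aF_bF_h510 {t : ℝ} (ht : 0 ≤ t) (w : ℂ) (ε : ℂ) :
    ∫ u in (0 : ℝ)..(2 * Real.pi),
      (((aF_h510 t u : ℝ) : ℂ) + ε * (((bF_h510 t u : ℝ) : ℂ) * Complex.I)) *
        ((xF_h510 t u : ℝ) : ℂ) ^ w
      = ∫ u in (0 : ℝ)..(2 * Real.pi), ((aF_h510 t u : ℝ) : ℂ) * ((xF_h510 t u : ℝ) : ℂ) ^ w := by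
  have hc1 : Continuous fun u : ℝ => ((aF_h510 t u : ℝ) : ℂ) * ((xF_h510 t u : ℝ) : ℂ) ^ w :=
    (Complex.continuous_ofReal.comp (continuous_aF_h510 t)).mul (continuous_cpow_xF_h510 ht w)
  have hc2 : Continuous fun u : ℝ =>
      ε * (((bF_h510 t u : ℝ) : ℂ) * Complex.I * ((xF_h510 t u : ℝ) : ℂ) ^ w) :=
    continuous_const.mul
      (((Complex.continuous_ofReal.comp (continuous_bF_h510 t)).mul continuous_const).mul
        (continuous_cpow_xF_h510 ht w))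
  have hsplit : ∀ u : ℝ,
      (((aF_h510 t u : ℝ) : ℂ) + ε * (((bF_h510 t u : ℝ) : ℂ) * Complex.I)) *
        ((xF_h510 t u : ℝ) : ℂ) ^ w
      = ((aF_h510 t u : ℝ) : ℂ) * ((xF_h510 t u : ℝ) : ℂ) ^ w
        + ε * (((bF_h510 t u : ℝ) : ℂ) * Complex.I * ((xF_h510 t u : ℝ) : ℂ) ^ w) := by
    intro u
    ring
  rw [intervalIntegral.integral_congr (fun u _ => hsplit u),
    intervalIntegral.integral_add (hc1.intervalIntegrable _ _) (hc2.intervalIntegrable _ _),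
    intervalIntegral.integral_const_mul, integral_bF_h510, mul_zero, add_zero]

/-! ## 8. The leaf -/

/-- **T6.29.R2 SPH-AVG-AT.** -/
theorem sphAvgAtC_h510 : SphAvgAtC := by
  intro n hn s t ht
  rcases hn with rfl | rfl | rfl
  · -- weight `0`
    have hG : Continuous fun u : ℝ => ((xF_h510 t u : ℝ) : ℂ) ^ (-s - 1 / 2) :=
      continuous_cpow_xF_h510 ht _
    have hper : Function.Periodic (fun u : ℝ => ((xF_h510 t u : ℝ) : ℂ) ^ (-s - 1 / 2))
        (2 * Real.pi) := by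
      intro u
      simp only [periodic_xF_h510 t u]
    rw [intervalIntegral.integral_congr (fun θ _ => integrand_zero_h510 s ht θ),
      integral_comp_two_mul_h510 hG hper]
    unfold sphRad sphR0
    rw [if_pos rfl, sqrt_cosh_sq_sub_one_h510 ht]
    rfl
  · -- weight `1`
    have hG : Continuous fun u : ℝ =>
        (((aF_h510 t u : ℝ) : ℂ) + ((bF_h510 t u : ℝ) : ℂ) * Complex.I) *
          ((xF_h510 t u : ℝ) : ℂ) ^ (-s - 1) :=
      ((Complex.continuous_ofReal.comp (continuous_aF_h510 t)).add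
        ((Complex.continuous_ofReal.comp (continuous_bF_h510 t)).mul continuous_const)).mul
        (continuous_cpow_xF_h510 ht _)
    have hper : Function.Periodic (fun u : ℝ =>
        (((aF_h510 t u : ℝ) : ℂ) + ((bF_h510 t u : ℝ) : ℂ) * Complex.I) *
          ((xF_h510 t u : ℝ) : ℂ) ^ (-s - 1)) (2 * Real.pi) := by
      intro u
      simp only [periodic_xF_h510 t u, periodic_aF_h510 t u, periodic_bF_h510 t u]
    have hε := integral_aF_bF_h510 ht (-s - 1) 1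
    simp only [one_mul] at hε
    rw [intervalIntegral.integral_congr (fun θ _ => integrand_one_h510 s ht θ),
      integral_comp_two_mul_h510 hG hper, hε]
    unfold sphRad sphR1
    rw [if_neg one_ne_zero, sqrt_cosh_sq_sub_one_h510 ht, sqrt_cosh_add_one_h510,
      sqrt_cosh_sub_one_h510 ht]
    rfl
  · -- weight `-1`
    have hG : Continuous fun u : ℝ =>
        (((aF_h510 t u : ℝ) : ℂ) - ((bF_h510 t u : ℝ) : ℂ) * Complex.I) *
          ((xF_h510 t u : ℝ) : ℂ) ^ (-s - 1) :=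
      ((Complex.continuous_ofReal.comp (continuous_aF_h510 t)).sub
        ((Complex.continuous_ofReal.comp (continuous_bF_h510 t)).mul continuous_const)).mul
        (continuous_cpow_xF_h510 ht _)
    have hper : Function.Periodic (fun u : ℝ =>
        (((aF_h510 t u : ℝ) : ℂ) - ((bF_h510 t u : ℝ) : ℂ) * Complex.I) *
          ((xF_h510 t u : ℝ) : ℂ) ^ (-s - 1)) (2 * Real.pi) := by
      intro u
      simp only [periodic_xF_h510 t u, periodic_aF_h510 t u, periodic_bF_h510 t u]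
    have hε := integral_aF_bF_h510 ht (-s - 1) (-1)
    simp only [neg_one_mul, ← sub_eq_add_neg] at hε
    rw [intervalIntegral.integral_congr (fun θ _ => integrand_neg_one_h510 s ht θ),
      integral_comp_two_mul_h510 hG hper, hε]
    unfold sphRad sphR1
    rw [if_neg (by decide), sqrt_cosh_sq_sub_one_h510 ht, sqrt_cosh_add_one_h510,
      sqrt_cosh_sub_one_h510 ht]
    rfl

end Fermat.Agent.LT.T6.H510

end
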